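import Fermat.Agent.S14.Thaine.ClassZetaB.Tent

/-!
# ClassZetaB / Weight: elementary properties of `w0` and `W` (FROZEN statements)
-/

set_option autoImplicit false

namespace Fermat.Agent.S14.Thaine.ClassZetaB

open NumberField NumberField.InfinitePlace NumberField.mixedEmbedding NumberField.Units
  NumberField.Units.dirichletUnitTheorem
open scoped nonZeroDivisors Classical

variable (K : Type*) [Field K] [NumberField K]

private theorem abs_prod_sub_prod_le_aux {ι : Type*} (s : Finset ι) (a b : ι → ℝ)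
    (ha0 : ∀ i, 0 ≤ a i) (ha1 : ∀ i, a i ≤ 1) (hb0 : ∀ i, 0 ≤ b i) (hb1 : ∀ i, b i ≤ 1) :
    |∏ i ∈ s, a i - ∏ i ∈ s, b i| ≤ ∑ i ∈ s, |a i - b i| := by
  classical
  induction s using Finset.induction_on with
  | empty => simp
  | insert j s hj ih =>
    rw [Finset.prod_insert hj, Finset.prod_insert hj, Finset.sum_insert hj]
    have hB0 : 0 ≤ ∏ i ∈ s, b i := Finset.prod_nonneg fun i _ => hb0 i
    have hB1 : ∏ i ∈ s, b i ≤ 1 := Finset.prod_le_one (fun i _ => hb0 i) fun i _ => hb1 i
    have e : a j * ∏ i ∈ s, a i - b j * ∏ i ∈ s, b i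
        = a j * (∏ i ∈ s, a i - ∏ i ∈ s, b i) + (a j - b j) * ∏ i ∈ s, b i := by ring
    rw [e]
    calc |a j * (∏ i ∈ s, a i - ∏ i ∈ s, b i) + (a j - b j) * ∏ i ∈ s, b i|
        ≤ |a j * (∏ i ∈ s, a i - ∏ i ∈ s, b i)| + |(a j - b j) * ∏ i ∈ s, b i| := abs_add_le _ _
      _ = a j * |∏ i ∈ s, a i - ∏ i ∈ s, b i| + |a j - b j| * ∏ i ∈ s, b i := by
          rw [abs_mul, abs_mul, abs_of_nonneg (ha0 j), abs_of_nonneg hB0]
      _ ≤ 1 * |∏ i ∈ s, a i - ∏ i ∈ s, b i| + |a j - b j| * 1 := by
          gcongr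
          · exact ha1 j
      _ ≤ |a j - b j| + ∑ i ∈ s, |a i - b i| := by linarith

theorem w0_nonneg (v : logSpace K) : 0 ≤ w0 K v := by
  unfold w0
  exact Finset.prod_nonneg fun i _ => tent_nonneg _

theorem w0_le_one (v : logSpace K) : w0 K v ≤ 1 := by
  unfold w0
  exact Finset.prod_le_one (fun i _ => tent_nonneg _) fun i _ => tent_le_one _

theorem w0_lipschitz : ∃ L : ℝ, 0 ≤ L ∧ ∀ v v' : logSpace K, |w0 K v - w0 K v'| ≤ L * ‖v - v'‖ := by
  let φ : logSpace K →L[ℝ] (Fin (rank K) → ℝ) :=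
    LinearMap.toContinuousLinearMap ((logBasis K).equivFun : logSpace K →ₗ[ℝ] _)
  refine ⟨(rank K : ℝ) * ‖φ‖, by positivity, fun v v' => ?_⟩
  have hφ : ∀ u : logSpace K, ∀ i, φ u i = (logBasis K).repr u i := fun u i => rfl
  calc |w0 K v - w0 K v'|
      ≤ ∑ i, |tent ((logBasis K).repr v i) - tent ((logBasis K).repr v' i)| := by
        unfold w0
        exact abs_prod_sub_prod_le_aux _ _ _ (fun i => tent_nonneg _) (fun i => tent_le_one _)
          (fun i => tent_nonneg _) (fun i => tent_le_one _)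
    _ ≤ ∑ _i : Fin (rank K), ‖φ‖ * ‖v - v'‖ := by
        refine Finset.sum_le_sum fun i _ => ?_
        refine (tent_lipschitz _ _).trans ?_
        have h1 : (logBasis K).repr v i - (logBasis K).repr v' i = φ (v - v') i := by
          rw [hφ, map_sub]; rfl
        rw [h1, ← Real.norm_eq_abs]
        exact (norm_le_pi_norm (φ (v - v')) i).trans (φ.le_opNorm _)
    _ = (rank K : ℝ) * ‖φ‖ * ‖v - v'‖ := by
        simp [Finset.sum_const, mul_assoc]

theorem w0_support : ∃ B : ℝ, 0 ≤ B ∧ ∀ v : logSpace K, w0 K v ≠ 0 → ‖v‖ ≤ B := by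
  refine ⟨∑ i, ‖logBasis K i‖, Finset.sum_nonneg fun i _ => norm_nonneg _, fun v hv => ?_⟩
  have h1 : ∀ i, |(logBasis K).repr v i| < 1 := by
    intro i
    apply abs_lt_one_of_tent_ne_zero
    intro h0
    apply hv
    unfold w0
    exact Finset.prod_eq_zero (Finset.mem_univ i) h0
  calc ‖v‖ = ‖∑ i, (logBasis K).repr v i • logBasis K i‖ := by rw [(logBasis K).sum_repr]
    _ ≤ ∑ i, ‖(logBasis K).repr v i • logBasis K i‖ := norm_sum_le _ _
    _ ≤ ∑ i, ‖logBasis K i‖ := by
        refine Finset.sum_le_sum fun i _ => ?_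
        rw [_root_.norm_smul, Real.norm_eq_abs]
        exact mul_le_of_le_one_left (norm_nonneg _) (h1 i).le

private theorem continuous_w0_aux : Continuous (w0 K) := by
  unfold w0
  refine continuous_finsetProd _ fun i _ => ?_
  have hc : Continuous fun v : logSpace K => (logBasis K).repr v i :=
    LinearMap.continuous_of_finiteDimensional
      ((Finsupp.lapply i : (Fin (rank K) →₀ ℝ) →ₗ[ℝ] ℝ) ∘ₗ
        ((logBasis K).repr : logSpace K →ₗ[ℝ] (Fin (rank K) →₀ ℝ)))
  unfold tent
  exact continuous_const.max (continuous_const.sub hc.abs)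

theorem measurable_w0 : Measurable (w0 K) :=
  (continuous_w0_aux K).measurable

theorem W_nonneg (x : mixedSpace K) : 0 ≤ W K x := by
  unfold W
  split_ifs
  · exact le_rfl
  · exact w0_nonneg K _

theorem W_le_one (x : mixedSpace K) : W K x ≤ 1 := by
  unfold W
  split_ifs
  · exact zero_le_one
  · exact w0_le_one K _

theorem norm_ne_zero_of_W_ne_zero {x : mixedSpace K} (h : W K x ≠ 0) :
    mixedEmbedding.norm x ≠ 0 := by
  intro h0
  apply h
  unfold W
  rw [if_pos h0]

theorem W_eq_of_norm_ne_zero {x : mixedSpace K} (h : mixedEmbedding.norm x ≠ 0) :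
    W K x = w0 K (logMap x) := by
  unfold W
  rw [if_neg h]

theorem measurable_W : Measurable (W K) := by
  unfold W
  refine Measurable.ite ?_ measurable_const ((measurable_w0 K).comp ?_)
  · exact measurableSet_eq_fun (mixedEmbedding.continuous_norm K).measurable measurable_const
  · unfold logMap
    refine measurable_pi_iff.mpr fun w ↦ measurable_const.mul ?_
    exact (continuous_normAtPlace _).measurable.log.sub <|
      (mixedEmbedding.continuous_norm _).measurable.log.mul measurable_const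

/-- `W` is invariant under nonzero real scaling. -/
theorem W_smul (x : mixedSpace K) {c : ℝ} (hc : c ≠ 0) : W K (c • x) = W K x := by
  by_cases hx : mixedEmbedding.norm x = 0
  · have hcx : mixedEmbedding.norm (c • x) = 0 := by
      rw [mixedEmbedding.norm_smul, hx, mul_zero]
    unfold W
    rw [if_pos hx, if_pos hcx]
  · have hcx : mixedEmbedding.norm (c • x) ≠ 0 := by
      rw [mixedEmbedding.norm_smul]
      exact mul_ne_zero (pow_ne_zero _ (abs_ne_zero.mpr hc)) hx
    rw [W_eq_of_norm_ne_zero K hx, W_eq_of_norm_ne_zero K hcx, logMap_real_smul hx hc]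

end Fermat.Agent.S14.Thaine.ClassZetaB
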