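import Fermat.Agent.S14.Thaine.ClassZetaB.GFun
import Fermat.Agent.S14.Thaine.ClassZetaB.Weight

/-!
# ClassZetaB / FiberA: from the lattice `idealLattice K J` to the elements of `J`
(FROZEN statements)
-/

set_option autoImplicit false

namespace Fermat.Agent.S14.Thaine.ClassZetaB

open NumberField NumberField.InfinitePlace NumberField.mixedEmbedding NumberField.Units
  NumberField.Units.dirichletUnitTheorem
open scoped nonZeroDivisors Classical

variable (K : Type*) [Field K] [NumberField K]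

theorem scal_pos (J : (Ideal (𝓞 K))⁰) : 0 < scal K J := by
  sorry

theorem scal_pow (J : (Ideal (𝓞 K))⁰) :
    scal K J ^ (Module.finrank ℚ K) = ((Ideal.absNorm (J : Ideal (𝓞 K)) : ℝ))⁻¹ := by
  sorry

/-- Value of the scaled test function at a nonzero element of `J`. -/
theorem f_scal_apply (J : (Ideal (𝓞 K))⁰) (s : ℝ) {α : 𝓞 K} (hα : α ∈ (J : Ideal (𝓞 K)))
    (hα0 : α ≠ 0) :
    f K s (scal K J • mixedEmbedding K (α : K)) =
      (Ideal.absNorm (J : Ideal (𝓞 K)) : ℝ) ^ s *
        ((Ideal.absNorm (Ideal.span {α}) : ℝ) ^ (-s) * W K (mixedEmbedding K (α : K))) := by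
  sorry

theorem f_zero (s : ℝ) : f K s 0 = 0 := by
  sorry

/-- The sum of the scaled test function over the lattice `idealLattice K J` is a sum over the
nonzero elements of `J`. -/
theorem lattice_sum_eq (J : (Ideal (𝓞 K))⁰) (s : ℝ)
    (hsum : Summable (fun x : idealLattice K (FractionalIdeal.mk0 K J) =>
      f K s (scal K J • (x : mixedSpace K)))) :
    Summable (fun α : {α : 𝓞 K // α ∈ (J : Ideal (𝓞 K)) ∧ α ≠ 0} =>
        (Ideal.absNorm (Ideal.span {(α : 𝓞 K)}) : ℝ) ^ (-s) *
          W K (mixedEmbedding K ((α : 𝓞 K) : K))) ∧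
      ∑' x : idealLattice K (FractionalIdeal.mk0 K J), f K s (scal K J • (x : mixedSpace K)) =
        (Ideal.absNorm (J : Ideal (𝓞 K)) : ℝ) ^ s *
          ∑' α : {α : 𝓞 K // α ∈ (J : Ideal (𝓞 K)) ∧ α ≠ 0},
            (Ideal.absNorm (Ideal.span {(α : 𝓞 K)}) : ℝ) ^ (-s) *
              W K (mixedEmbedding K ((α : 𝓞 K) : K)) := by
  sorry

end Fermat.Agent.S14.Thaine.ClassZetaB
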