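import Fermat.Agent.S14.Thaine.ClassZetaB.UnitSum

/-!
# ClassZetaB / FiberB: summing over the generators of principal ideals (FROZEN statement)
-/

set_option autoImplicit false

namespace Fermat.Agent.S14.Thaine.ClassZetaB

open NumberField NumberField.InfinitePlace NumberField.mixedEmbedding NumberField.Units
  NumberField.Units.dirichletUnitTheorem
open scoped nonZeroDivisors Classical

variable (K : Type*) [Field K] [NumberField K]

/-- The sum over the nonzero elements `α` of `J` of `N((α))^(-s) W(α)` equals `torsionOrder K` times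
the sum of `N(I)^(-s)` over the nonzero principal ideals `I` divisible by `J` (each such `I` has
the generators `u α₀`, `u ∈ (𝓞 K)ˣ`, and `∑_u W(u • α₀) = torsionOrder K`). -/
theorem principal_sum_eq (J : (Ideal (𝓞 K))⁰) (s : ℝ)
    (hsum : Summable (fun α : {α : 𝓞 K // α ∈ (J : Ideal (𝓞 K)) ∧ α ≠ 0} =>
        (Ideal.absNorm (Ideal.span {(α : 𝓞 K)}) : ℝ) ^ (-s) *
          W K (mixedEmbedding K ((α : 𝓞 K) : K)))) :
    Summable (fun I : {I : (Ideal (𝓞 K))⁰ // (J : Ideal (𝓞 K)) ∣ I ∧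
        Submodule.IsPrincipal (I : Ideal (𝓞 K))} =>
        (Ideal.absNorm (I.1 : Ideal (𝓞 K)) : ℝ) ^ (-s)) ∧
      ∑' α : {α : 𝓞 K // α ∈ (J : Ideal (𝓞 K)) ∧ α ≠ 0},
          (Ideal.absNorm (Ideal.span {(α : 𝓞 K)}) : ℝ) ^ (-s) *
            W K (mixedEmbedding K ((α : 𝓞 K) : K)) =
        (torsionOrder K : ℝ) * ∑' I : {I : (Ideal (𝓞 K))⁰ // (J : Ideal (𝓞 K)) ∣ I ∧
          Submodule.IsPrincipal (I : Ideal (𝓞 K))}, (Ideal.absNorm (I.1 : Ideal (𝓞 K)) : ℝ) ^ (-s) := by
  sorry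

end Fermat.Agent.S14.Thaine.ClassZetaB
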