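import Fermat.Agent.S14.Thaine.ClassZetaB.Defs

/-!
# ClassZetaB / FiberC: the ideals of a class `C` correspond to the principal ideals divisible by
a fixed ideal `J` of the inverse class (FROZEN statement)
-/

set_option autoImplicit false

namespace Fermat.Agent.S14.Thaine.ClassZetaB

open NumberField NumberField.InfinitePlace NumberField.mixedEmbedding NumberField.Units
  NumberField.Units.dirichletUnitTheorem
open scoped nonZeroDivisors Classical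

variable (K : Type*) [Field K] [NumberField K]

theorem classZeta_eq_principal (J : (Ideal (𝓞 K))⁰) (C : ClassGroup (𝓞 K))
    (hJ : ClassGroup.mk0 J = C⁻¹) (s : ℝ)
    (hsum : Summable (fun I : {I : (Ideal (𝓞 K))⁰ // (J : Ideal (𝓞 K)) ∣ I ∧
        Submodule.IsPrincipal (I : Ideal (𝓞 K))} =>
        (Ideal.absNorm (I.1 : Ideal (𝓞 K)) : ℝ) ^ (-s))) :
    Summable (fun I : {I : (Ideal (𝓞 K))⁰ // ClassGroup.mk0 I = C} =>
        ((Ideal.absNorm (I.1 : Ideal (𝓞 K)) : ℝ)) ^ (-s)) ∧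
      classZeta K C s = (Ideal.absNorm (J : Ideal (𝓞 K)) : ℝ) ^ s *
        ∑' I : {I : (Ideal (𝓞 K))⁰ // (J : Ideal (𝓞 K)) ∣ I ∧
          Submodule.IsPrincipal (I : Ideal (𝓞 K))}, (Ideal.absNorm (I.1 : Ideal (𝓞 K)) : ℝ) ^ (-s) := by
  set Q := {I : (Ideal (𝓞 K))⁰ // ClassGroup.mk0 I = C} with hQ
  set P := {I : (Ideal (𝓞 K))⁰ // (J : Ideal (𝓞 K)) ∣ I ∧
          Submodule.IsPrincipal (I : Ideal (𝓞 K))} with hP
  have hJ0 : (J : Ideal (𝓞 K)) ≠ 0 := nonZeroDivisors.coe_ne_zero J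
  -- the map `I ↦ J * I`
  have hwd : ∀ I : Q, (J : Ideal (𝓞 K)) ∣ ((J * I.1 : (Ideal (𝓞 K))⁰) : Ideal (𝓞 K)) ∧
      Submodule.IsPrincipal ((J * I.1 : (Ideal (𝓞 K))⁰) : Ideal (𝓞 K)) := by
    intro I
    refine ⟨⟨(I.1 : Ideal (𝓞 K)), by rw [Submonoid.coe_mul]⟩, ?_⟩
    have h1 : ClassGroup.mk0 (J * I.1) = 1 := by
      rw [map_mul, hJ, I.2, inv_mul_cancel]
    exact (ClassGroup.mk0_eq_one_iff (J * I.1).2).1 h1
  let e0 : Q → P := fun I => ⟨J * I.1, hwd I⟩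
  have hinj : Function.Injective e0 := by
    intro I I' h
    have h1 : (J * I.1 : (Ideal (𝓞 K))⁰) = J * I'.1 := congrArg Subtype.val h
    exact Subtype.ext (mul_left_cancel h1)
  have hsurj : Function.Surjective e0 := by
    rintro ⟨I', ⟨I₀, hI₀⟩, hprin⟩
    have hI'0 : (I' : Ideal (𝓞 K)) ≠ 0 := nonZeroDivisors.coe_ne_zero I'
    have hI₀0 : I₀ ≠ 0 := by
      rintro rfl
      exact hI'0 (by rw [hI₀, mul_zero])
    have hmem : I₀ ∈ (Ideal (𝓞 K))⁰ := mem_nonZeroDivisors_of_ne_zero hI₀0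
    have heq : (J * ⟨I₀, hmem⟩ : (Ideal (𝓞 K))⁰) = I' := by
      apply Subtype.ext
      rw [Submonoid.coe_mul]
      exact hI₀.symm
    have h1 : ClassGroup.mk0 I' = 1 := (ClassGroup.mk0_eq_one_iff I'.2).2 hprin
    have h2 : ClassGroup.mk0 (⟨I₀, hmem⟩ : (Ideal (𝓞 K))⁰) = C := by
      have h3 : ClassGroup.mk0 J * ClassGroup.mk0 (⟨I₀, hmem⟩ : (Ideal (𝓞 K))⁰) = 1 := by
        rw [← map_mul, heq, h1]
      rw [hJ] at h3
      exact (inv_mul_eq_one.1 h3).symm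
    exact ⟨⟨⟨I₀, hmem⟩, h2⟩, Subtype.ext heq⟩
  let e : Q ≃ P := Equiv.ofBijective e0 ⟨hinj, hsurj⟩
  set c : ℝ := (Ideal.absNorm (J : Ideal (𝓞 K)) : ℝ) with hc
  have hcpos : 0 < c := by
    have : 0 < Ideal.absNorm (J : Ideal (𝓞 K)) :=
      Nat.pos_of_ne_zero (fun h => hJ0 (Ideal.absNorm_eq_zero_iff.1 h))
    rw [hc]
    exact_mod_cast this
  have hnorm : ∀ I : Q, (Ideal.absNorm ((e I).1 : Ideal (𝓞 K)) : ℝ) ^ (-s) =
      c ^ (-s) * (Ideal.absNorm (I.1 : Ideal (𝓞 K)) : ℝ) ^ (-s) := by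
    intro I
    have : ((e I).1 : Ideal (𝓞 K)) = (J : Ideal (𝓞 K)) * (I.1 : Ideal (𝓞 K)) := by
      show ((J * I.1 : (Ideal (𝓞 K))⁰) : Ideal (𝓞 K)) = _
      rw [Submonoid.coe_mul]
    rw [this, map_mul, Nat.cast_mul, Real.mul_rpow (Nat.cast_nonneg _) (Nat.cast_nonneg _)]
  have hcs : c ^ (-s) ≠ 0 := (Real.rpow_pos_of_pos hcpos _).ne'
  have hsumQ' : Summable (fun I : Q => c ^ (-s) * (Ideal.absNorm (I.1 : Ideal (𝓞 K)) : ℝ) ^ (-s)) := by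
    have := (e.summable_iff).2 hsum
    refine this.congr ?_
    intro I
    exact hnorm I
  have hsumQ : Summable (fun I : Q => (Ideal.absNorm (I.1 : Ideal (𝓞 K)) : ℝ) ^ (-s)) :=
    (summable_mul_left_iff hcs).1 hsumQ'
  refine ⟨hsumQ, ?_⟩
  have htsum : ∑' I : P, (Ideal.absNorm (I.1 : Ideal (𝓞 K)) : ℝ) ^ (-s) =
      c ^ (-s) * classZeta K C s := by
    rw [← e.tsum_eq (fun I : P => (Ideal.absNorm (I.1 : Ideal (𝓞 K)) : ℝ) ^ (-s))]
    rw [tsum_congr hnorm, tsum_mul_left]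
    rfl
  rw [htsum, ← mul_assoc, ← Real.rpow_add hcpos, add_neg_cancel, Real.rpow_zero, one_mul]

end Fermat.Agent.S14.Thaine.ClassZetaB
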