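import Fermat.Agent.S14.Thaine.ClassZetaB.Weight

/-!
# ClassZetaB / Cone: on the support of `W` all coordinates are comparable (FROZEN statements)
-/

set_option autoImplicit false

namespace Fermat.Agent.S14.Thaine.ClassZetaB

open NumberField NumberField.InfinitePlace NumberField.mixedEmbedding NumberField.Units
  NumberField.Units.dirichletUnitTheorem
open scoped nonZeroDivisors Classical

variable (K : Type*) [Field K] [NumberField K]

theorem normAtPlace_le_norm (w : InfinitePlace K) (x : mixedSpace K) : normAtPlace w x ≤ ‖x‖ := by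
  sorry

theorem exists_normAtPlace_eq_norm (x : mixedSpace K) : ∃ w : InfinitePlace K, normAtPlace w x = ‖x‖ := by
  sorry

theorem norm_le_norm_pow (x : mixedSpace K) :
    mixedEmbedding.norm x ≤ ‖x‖ ^ (Module.finrank ℚ K) := by
  sorry

theorem pow_le_norm {μ : ℝ} (hμ : 0 ≤ μ) {x : mixedSpace K}
    (h : ∀ w : InfinitePlace K, μ ≤ normAtPlace w x) :
    μ ^ (Module.finrank ℚ K) ≤ mixedEmbedding.norm x := by
  sorry

/-- On the support of `W`, every coordinate is at least `m * ‖x‖`. -/
theorem exists_cone_const : ∃ m : ℝ, 0 < m ∧ m ≤ 1 ∧ ∀ x : mixedSpace K, W K x ≠ 0 →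
    ∀ w : InfinitePlace K, m * ‖x‖ ≤ normAtPlace w x := by
  sorry

end Fermat.Agent.S14.Thaine.ClassZetaB
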