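import Fermat.Agent.S14.Thaine.ClassZetaB.GFun
import Fermat.Agent.S14.Thaine.ClassZetaB.Cone

/-!
# ClassZetaB / Integrable: measurability, decay and integrability of `f` (FROZEN statements)
-/

set_option autoImplicit false

namespace Fermat.Agent.S14.Thaine.ClassZetaB

open NumberField NumberField.InfinitePlace NumberField.mixedEmbedding NumberField.Units
  NumberField.Units.dirichletUnitTheorem
open scoped nonZeroDivisors Classical

variable (K : Type*) [Field K] [NumberField K]

theorem measurable_f (s : ℝ) : Measurable (f K s) := by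
  have h1 : Measurable (fun x : mixedSpace K => G s (mixedEmbedding.norm x)) :=
    (measurable_G s).comp (mixedEmbedding.continuous_norm K).measurable
  exact h1.mul (measurable_W K)

/-- Decay: `f s x ≤ C (1 + ‖x‖)^(-n s)`. -/
theorem f_le_decay : ∃ C : ℝ, 0 ≤ C ∧ ∀ s : ℝ, 1 ≤ s → s ≤ 2 → ∀ x : mixedSpace K,
    |f K s x| ≤ C * (1 + ‖x‖) ^ (-((Module.finrank ℚ K : ℝ) * s)) := by
  obtain ⟨m, hm0, hm1, hm⟩ := exists_cone_const K
  have hn : 0 < Module.finrank ℚ K := Module.finrank_pos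
  have hnR : (0 : ℝ) < (Module.finrank ℚ K : ℝ) := by exact_mod_cast hn
  have h3m : (1 : ℝ) ≤ 3 / m := by
    rw [le_div_iff₀ hm0]; linarith
  refine ⟨(3 / m) ^ ((Module.finrank ℚ K : ℝ) * 2), by positivity, fun s hs1 hs2 x => ?_⟩
  have hrhs : 0 ≤ (3 / m) ^ ((Module.finrank ℚ K : ℝ) * 2) *
      (1 + ‖x‖) ^ (-((Module.finrank ℚ K : ℝ) * s)) := by positivity
  by_cases hW : W K x = 0
  · have : f K s x = 0 := by simp [f, hW]
    rw [this, abs_zero]; exact hrhs
  have hN := pow_le_norm K (μ := m * ‖x‖) (by positivity) (hm x hW)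
  by_cases hN2 : mixedEmbedding.norm x ≤ 1 / 2
  · have : f K s x = 0 := by simp [f, G_eq_zero s hN2]
    rw [this, abs_zero]; exact hrhs
  rw [not_le] at hN2
  have hNn := norm_le_norm_pow K x
  have hx2 : 1 / 2 ≤ ‖x‖ := by
    by_contra hcon
    rw [not_le] at hcon
    have : ‖x‖ ^ (Module.finrank ℚ K) ≤ ‖x‖ :=
      pow_le_of_le_one (norm_nonneg x) (by linarith) hn.ne'
    linarith
  have hxpos : 0 < ‖x‖ := by linarith
  have hNpos : 0 < mixedEmbedding.norm x := by linarith
  have hmx : 0 < m * ‖x‖ := by positivity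
  have hle : m / 3 * (1 + ‖x‖) ≤ m * ‖x‖ := by nlinarith
  have hpos' : 0 < m / 3 * (1 + ‖x‖) := by positivity
  have hs0 : -((Module.finrank ℚ K : ℝ) * s) ≤ 0 := by
    have : 0 ≤ (Module.finrank ℚ K : ℝ) * s := by positivity
    linarith
  have hf : |f K s x| ≤ mixedEmbedding.norm x ^ (-s) := by
    have hG0 := G_nonneg s hNpos.le
    have hG1 := G_le_rpow s hNpos
    have hW0 := W_nonneg K x
    have hW1 := W_le_one K x
    rw [f, abs_of_nonneg (mul_nonneg hG0 hW0)]
    calc G s (mixedEmbedding.norm x) * W K x ≤ G s (mixedEmbedding.norm x) * 1 :=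
          mul_le_mul_of_nonneg_left hW1 hG0
      _ ≤ mixedEmbedding.norm x ^ (-s) := by rw [mul_one]; exact hG1
  calc |f K s x| ≤ mixedEmbedding.norm x ^ (-s) := hf
    _ ≤ ((m * ‖x‖) ^ (Module.finrank ℚ K)) ^ (-s) :=
        Real.rpow_le_rpow_of_nonpos (by positivity) hN (by linarith)
    _ = (m * ‖x‖) ^ (-((Module.finrank ℚ K : ℝ) * s)) := by
        rw [← Real.rpow_natCast, ← Real.rpow_mul hmx.le, mul_neg]
    _ ≤ (m / 3 * (1 + ‖x‖)) ^ (-((Module.finrank ℚ K : ℝ) * s)) :=
        Real.rpow_le_rpow_of_nonpos hpos' hle hs0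
    _ = (3 / m) ^ ((Module.finrank ℚ K : ℝ) * s) *
          (1 + ‖x‖) ^ (-((Module.finrank ℚ K : ℝ) * s)) := by
        rw [Real.mul_rpow (by positivity) (by positivity), Real.rpow_neg (by positivity),
          ← Real.inv_rpow (by positivity), inv_div]
    _ ≤ (3 / m) ^ ((Module.finrank ℚ K : ℝ) * 2) *
          (1 + ‖x‖) ^ (-((Module.finrank ℚ K : ℝ) * s)) := by
        apply mul_le_mul_of_nonneg_right _ (by positivity)
        exact Real.rpow_le_rpow_of_exponent_le h3m (by nlinarith)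

theorem integrable_f {s : ℝ} (hs1 : 1 < s) (hs2 : s ≤ 2) :
    MeasureTheory.Integrable (f K s) MeasureTheory.volume := by
  obtain ⟨C, hC0, hC⟩ := f_le_decay K
  have hn : 0 < Module.finrank ℚ K := Module.finrank_pos
  have hnR : (0 : ℝ) < (Module.finrank ℚ K : ℝ) := by exact_mod_cast hn
  have hr : (Module.finrank ℝ (mixedSpace K) : ℝ) < (Module.finrank ℚ K : ℝ) * s := by
    rw [mixedEmbedding.finrank]
    nlinarith
  have hint : MeasureTheory.Integrable
      (fun x : mixedSpace K => (1 + ‖x‖) ^ (-((Module.finrank ℚ K : ℝ) * s)))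
      MeasureTheory.volume := integrable_one_add_norm hr
  refine MeasureTheory.Integrable.mono' (hint.const_mul C)
    (measurable_f K s).aestronglyMeasurable (Filter.Eventually.of_forall fun x => ?_)
  rw [Real.norm_eq_abs]
  exact hC s hs1.le hs2 x

end Fermat.Agent.S14.Thaine.ClassZetaB
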