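import Fermat.Agent.S14.Thaine.ClassZetaB.Defs

/-!
# ClassZetaB / QRS: quantitative comparison of a lattice sum with an integral (FROZEN statement)
-/

set_option autoImplicit false

namespace Fermat.Agent.S14.Thaine.ClassZetaB

open NumberField NumberField.InfinitePlace NumberField.mixedEmbedding NumberField.Units
  NumberField.Units.dirichletUnitTheorem
open scoped nonZeroDivisors Classical

open MeasureTheory

/-- Quantitative Riemann sum: if `F` is a fundamental domain of finite measure for the lattice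
`Λ`, `f` is integrable and `|f (x + t) - f x| ≤ h x` for all `x ∈ Λ`, `t ∈ F`, with `h` summable
over `Λ`, then `f` is summable over `Λ` and
`|μ(F) * ∑_{x ∈ Λ} f x - ∫ f| ≤ μ(F) * ∑_{x ∈ Λ} h x`. -/
theorem riemann_sum_bound {E : Type*} [NormedAddCommGroup E] [NormedSpace ℝ E]
    [MeasurableSpace E] [BorelSpace E] (μ : Measure E) [μ.IsAddHaarMeasure]
    (Λ : Submodule ℤ E) [Countable Λ] (F : Set E) (hF : IsAddFundamentalDomain Λ F μ)
    (hFfin : μ F ≠ ⊤) (f : E → ℝ) (hf : Integrable f μ) (h : Λ → ℝ) (hh : Summable h)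
    (hfh : ∀ (x : Λ) (t : E), t ∈ F → |f ((x : E) + t) - f (x : E)| ≤ h x) :
    Summable (fun x : Λ => f (x : E)) ∧
      |μ.real F * ∑' x : Λ, f (x : E) - ∫ y, f y ∂μ| ≤ μ.real F * ∑' x : Λ, h x := by
  have : VAddInvariantMeasure Λ E μ :=
    (inferInstance : VAddInvariantMeasure Λ.toAddSubgroup E μ)
  have : MeasurableConstVAdd Λ E :=
    (inferInstance : MeasurableConstVAdd Λ.toAddSubgroup E)
  -- Step 1: the sum of the integrals over the translates
  have hA : HasSum (fun x : Λ => ∫ t in F, f ((x : E) + t) ∂μ) (∫ y, f y ∂μ) := by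
    have h1 : HasSum (fun x : Λ => ∫ y, f y ∂(μ.restrict ((fun y : E => x +ᵥ y) '' F)))
        (∫ y, f y ∂(Measure.sum fun x : Λ => μ.restrict ((fun y : E => x +ᵥ y) '' F))) :=
      hasSum_integral_measure (by
        have h2 : (Measure.sum fun x : Λ => μ.restrict ((fun y : E => x +ᵥ y) '' F)) = μ :=
          hF.sum_restrict
        rw [h2]; exact hf)
    have h2 : (Measure.sum fun x : Λ => μ.restrict ((fun y : E => x +ᵥ y) '' F)) = μ :=
      hF.sum_restrict
    rw [h2] at h1
    convert h1 using 2 with x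
    exact ((measurePreserving_vadd x μ).setIntegral_image_emb
      (measurableEmbedding_const_vadd _) _ _).symm
  -- Step 3: positivity of the measure of `F`
  have hμF0 : μ F ≠ 0 := hF.measure_ne_zero (NeZero.ne μ)
  have hFpos : 0 < μ.real F := ENNReal.toReal_pos hμF0 hFfin
  have hFne : F.Nonempty := by
    rw [Set.nonempty_iff_ne_empty]
    rintro rfl
    exact hμF0 measure_empty
  obtain ⟨t₀, ht₀⟩ := hFne
  have hh0 : ∀ x : Λ, 0 ≤ h x := fun x => (abs_nonneg _).trans (hfh x t₀ ht₀)
  -- Step 2: termwise bound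
  have hint : ∀ x : Λ, IntegrableOn (fun t => f ((x : E) + t)) F μ := fun x =>
    (hf.comp_add_left (x : E)).integrableOn
  have hFfin' : μ F < ⊤ := hFfin.lt_top
  have hconst : ∀ x : Λ, IntegrableOn (fun _ : E => f (x : E)) F μ := fun x =>
    integrableOn_const hFfin
  have hterm : ∀ x : Λ,
      ‖μ.real F * f (x : E) - ∫ t in F, f ((x : E) + t) ∂μ‖ ≤ μ.real F * h x := by
    intro x
    have e1 : μ.real F * f (x : E) = ∫ _ in F, f (x : E) ∂μ := by
      rw [setIntegral_const, smul_eq_mul]
    rw [e1, ← integral_sub (hconst x) (hint x), mul_comm]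
    refine norm_setIntegral_le_of_norm_le_const hFfin' fun t ht => ?_
    rw [Real.norm_eq_abs, abs_sub_comm]
    exact hfh x t ht
  have hS : Summable (fun x : Λ => μ.real F * h x) := hh.mul_left _
  have hD : Summable (fun x : Λ => μ.real F * f (x : E) - ∫ t in F, f ((x : E) + t) ∂μ) :=
    Summable.of_norm_bounded hS hterm
  have hB : Summable (fun x : Λ => μ.real F * f (x : E)) := by
    have := hD.add hA.summable
    simpa using this
  have hf' : Summable (fun x : Λ => f (x : E)) := (summable_mul_left_iff hFpos.ne').1 hB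
  refine ⟨hf', ?_⟩
  rw [← tsum_mul_left, ← tsum_mul_left, ← hA.tsum_eq, ← hB.tsum_sub hA.summable,
    ← Real.norm_eq_abs]
  exact tsum_of_norm_bounded hS.hasSum hterm

end Fermat.Agent.S14.Thaine.ClassZetaB
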