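import Fermat.Agent.S14.Thaine.ClassZetaB.Regularity
import Fermat.Agent.S14.Thaine.ClassZetaB.Integrable
import Fermat.Agent.S14.Thaine.ClassZetaB.QRS
import Fermat.Agent.S14.Thaine.ClassZetaB.FiberA
import Fermat.Agent.S14.Thaine.ClassZetaB.FiberB
import Fermat.Agent.S14.Thaine.ClassZetaB.FiberC

/-!
# ClassZetaB / Assembly (owner helper10)

`covO K * (torsionOrder K * classZeta K C s) = ∫ f K s + O(1)` uniformly for `s ∈ (1,2]`, for every
ideal class `C`; hence the difference of two partial zeta functions is bounded.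
-/

set_option autoImplicit false

namespace Fermat.Agent.S14.Thaine.ClassZetaB

open NumberField NumberField.InfinitePlace NumberField.mixedEmbedding NumberField.Units
  NumberField.Units.dirichletUnitTheorem
open scoped nonZeroDivisors Classical
open MeasureTheory

variable (K : Type*) [Field K] [NumberField K]

/-- The covolume of the lattice of integers in the mixed space. -/
noncomputable def covO : ℝ := (volume (ZSpan.fundamentalDomain (latticeBasis K))).toReal

theorem covO_pos : 0 < covO K := by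
  sorry

theorem volume_fundamentalDomain_ne_top (J : (Ideal (𝓞 K))⁰) :
    volume (ZSpan.fundamentalDomain
      (fractionalIdealLatticeBasis K (FractionalIdeal.mk0 K J))) ≠ ⊤ := by
  sorry

theorem volume_real_fundamentalDomain (J : (Ideal (𝓞 K))⁰) :
    volume.real (ZSpan.fundamentalDomain
      (fractionalIdealLatticeBasis K (FractionalIdeal.mk0 K J))) =
      (Ideal.absNorm (J : Ideal (𝓞 K)) : ℝ) * covO K := by
  sorry

theorem absNorm_pos (J : (Ideal (𝓞 K))⁰) : (0 : ℝ) < (Ideal.absNorm (J : Ideal (𝓞 K)) : ℝ) := by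
  sorry

theorem lattice_summable_h (J : (Ideal (𝓞 K))⁰) {c : ℝ} (hc : 0 < c) :
    Summable (fun x : idealLattice K (FractionalIdeal.mk0 K J) =>
      (1 + ‖c • (x : mixedSpace K)‖) ^ (-((Module.finrank ℚ K : ℝ) + 1))) := by
  sorry

theorem integral_f_scal (J : (Ideal (𝓞 K))⁰) (s : ℝ) :
    ∫ y, f K s (scal K J • y) = (Ideal.absNorm (J : Ideal (𝓞 K)) : ℝ) * ∫ y, f K s y := by
  sorry

theorem exists_bound_class (C : ClassGroup (𝓞 K)) : ∃ B : ℝ, ∀ s : ℝ, 1 < s → s ≤ 2 →
    Summable (fun I : {I : (Ideal (𝓞 K))⁰ // ClassGroup.mk0 I = C} =>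
      ((Ideal.absNorm (I.1 : Ideal (𝓞 K)) : ℝ)) ^ (-s)) ∧
    |covO K * ((torsionOrder K : ℝ) * classZeta K C s) - ∫ y, f K s y| ≤ B := by
  obtain ⟨J, hJ⟩ := ClassGroup.mk0_surjective C⁻¹
  have hc := scal_pos K J
  have hN := absNorm_pos K J
  have hbdd := ZSpan.fundamentalDomain_isBounded
    (fractionalIdealLatticeBasis K (FractionalIdeal.mk0 K J))
  obtain ⟨D, hD⟩ := isBounded_iff_forall_norm_le.mp hbdd
  have hD0 : 0 ≤ D := by
    have h0 : (0 : mixedSpace K) ∈ ZSpan.fundamentalDomain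
        (fractionalIdealLatticeBasis K (FractionalIdeal.mk0 K J)) := by
      simp [ZSpan.mem_fundamentalDomain]
    simpa using hD 0 h0
  obtain ⟨L, hL0, hL⟩ := f_regular K (scal K J * D) (by positivity)
  have hh : Summable (fun x : idealLattice K (FractionalIdeal.mk0 K J) =>
      L * (1 + ‖scal K J • (x : mixedSpace K)‖) ^ (-((Module.finrank ℚ K : ℝ) + 1))) :=
    (lattice_summable_h K J hc).mul_left L
  refine ⟨covO K * ∑' x : idealLattice K (FractionalIdeal.mk0 K J),
    L * (1 + ‖scal K J • (x : mixedSpace K)‖) ^ (-((Module.finrank ℚ K : ℝ) + 1)), ?_⟩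
  intro s hs1 hs2
  have hint : Integrable (fun y => f K s (scal K J • y)) volume :=
    (integrable_f K hs1 hs2).comp_smul hc.ne'
  obtain ⟨hsumΛ, hbound⟩ := riemann_sum_bound volume
    (idealLattice K (FractionalIdeal.mk0 K J)) _ (fundamentalDomain_idealLattice K _)
    (volume_fundamentalDomain_ne_top K J) (fun y => f K s (scal K J • y)) hint _ hh
    (fun x t ht => by
      have h1 := hL s hs1.le hs2 (scal K J • (x : mixedSpace K)) (scal K J • t) (by
        rw [_root_.norm_smul, Real.norm_of_nonneg hc.le]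
        exact mul_le_mul_of_nonneg_left (hD t ht) hc.le)
      simpa [smul_add] using h1)
  obtain ⟨hsumα, e1⟩ := lattice_sum_eq K J s hsumΛ
  obtain ⟨hsumI, e2⟩ := principal_sum_eq K J s hsumα
  obtain ⟨hsumC, e3⟩ := classZeta_eq_principal K J C hJ s hsumI
  refine ⟨hsumC, ?_⟩
  have e4 : ∑' x : idealLattice K (FractionalIdeal.mk0 K J),
      f K s (scal K J • (x : mixedSpace K)) = (torsionOrder K : ℝ) * classZeta K C s := by
    rw [e1, e2, e3]; ring
  rw [e4, integral_f_scal, volume_real_fundamentalDomain] at hbound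
  have e5 : (Ideal.absNorm (J : Ideal (𝓞 K)) : ℝ) * covO K *
        ((torsionOrder K : ℝ) * classZeta K C s) -
      (Ideal.absNorm (J : Ideal (𝓞 K)) : ℝ) * ∫ y, f K s y =
      (Ideal.absNorm (J : Ideal (𝓞 K)) : ℝ) *
        (covO K * ((torsionOrder K : ℝ) * classZeta K C s) - ∫ y, f K s y) := by ring
  rw [e5, abs_mul, abs_of_pos hN, mul_assoc] at hbound
  exact le_of_mul_le_mul_left hbound hN

theorem classZeta_summable' (C : ClassGroup (𝓞 K)) {s : ℝ} (hs : 1 < s) :
    Summable (fun I : {I : (Ideal (𝓞 K))⁰ // ClassGroup.mk0 I = C} =>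
      ((Ideal.absNorm (I.1 : Ideal (𝓞 K)) : ℝ)) ^ (-s)) := by
  sorry

theorem classZeta_sub_bounded' (C C' : ClassGroup (𝓞 K)) :
    ∃ M : ℝ, ∀ s : ℝ, 1 < s → s ≤ 2 → |classZeta K C s - classZeta K C' s| ≤ M := by
  obtain ⟨B, hB⟩ := exists_bound_class K C
  obtain ⟨B', hB'⟩ := exists_bound_class K C'
  have hw : (0 : ℝ) < (torsionOrder K : ℝ) := by
    exact_mod_cast torsionOrder_pos K
  have hcov := covO_pos K
  refine ⟨(B + B') / (covO K * (torsionOrder K : ℝ)), fun s hs1 hs2 => ?_⟩
  have h1 := (hB s hs1 hs2).2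
  have h2 := (hB' s hs1 hs2).2
  have h3 : |covO K * ((torsionOrder K : ℝ) * classZeta K C s) -
      covO K * ((torsionOrder K : ℝ) * classZeta K C' s)| ≤ B + B' := by
    have := abs_sub_le (covO K * ((torsionOrder K : ℝ) * classZeta K C s)) (∫ y, f K s y)
      (covO K * ((torsionOrder K : ℝ) * classZeta K C' s))
    rw [abs_sub_comm (∫ y, f K s y) _] at this
    linarith
  have h4 : covO K * ((torsionOrder K : ℝ) * classZeta K C s) -
      covO K * ((torsionOrder K : ℝ) * classZeta K C' s) =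
      (covO K * (torsionOrder K : ℝ)) * (classZeta K C s - classZeta K C' s) := by ring
  rw [h4, abs_mul, abs_of_pos (mul_pos hcov hw)] at h3
  rw [le_div_iff₀ (mul_pos hcov hw), mul_comm]
  exact h3

end Fermat.Agent.S14.Thaine.ClassZetaB
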