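import Fermat.Agent.S14.Thaine.Defs

/-!
# Route T, block ClassZetaB (owner helper10): definitions

Smooth (Lipschitz) partition of unity over the unit group and the test function `f`.

* `tent t = max 0 (1 - |t|)`; `cut T` is `0` for `T ≤ 1/2`, `1` for `T ≥ 1`, linear in between;
  `G s T = cut T * T ^ (-s)`.
* `logBasis K`: the `ℝ`-basis of `logSpace K` coming from the `ℤ`-basis `basisUnitLattice K` of the
  unit lattice; `w0 K v = ∏ i, tent (coordinate i of v)`.
* `W K x = w0 K (logMap x)` if `mixedEmbedding.norm x ≠ 0`, and `0` otherwise: a function on the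
  mixed space, invariant under real scaling and under torsion units, with
  `∑_{u ∈ (𝓞 K)ˣ} W (u • x) = torsionOrder K`.
* `f K s x = G s (mixedEmbedding.norm x) * W K x`.
-/

set_option autoImplicit false

namespace Fermat.Agent.S14.Thaine.ClassZetaB

open NumberField NumberField.InfinitePlace NumberField.mixedEmbedding NumberField.Units
  NumberField.Units.dirichletUnitTheorem
open scoped nonZeroDivisors Classical

/-- The tent function `max 0 (1 - |t|)`. -/
noncomputable def tent (t : ℝ) : ℝ := max 0 (1 - |t|)

/-- Cut-off: `0` for `T ≤ 1/2`, `1` for `T ≥ 1`, linear in between. -/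
noncomputable def cut (T : ℝ) : ℝ := max 0 (min 1 (2 * T - 1))

/-- `G s T = cut T * T ^ (-s)`. -/
noncomputable def G (s T : ℝ) : ℝ := cut T * T ^ (-s)

variable (K : Type*) [Field K] [NumberField K]

/-- The `ℝ`-basis of `logSpace K` obtained from the `ℤ`-basis `basisUnitLattice K` of the unit
lattice. -/
noncomputable def logBasis : Module.Basis (Fin (rank K)) ℝ (logSpace K) :=
  (basisUnitLattice K).ofZLatticeBasis ℝ (unitLattice K)

/-- Product of tent functions in the coordinates of `logBasis K`. -/
noncomputable def w0 (v : logSpace K) : ℝ := ∏ i, tent ((logBasis K).repr v i)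

/-- The weight function on the mixed space. -/
noncomputable def W (x : mixedSpace K) : ℝ :=
  if mixedEmbedding.norm x = 0 then 0 else w0 K (logMap x)

/-- The test function `f s x = G s (norm x) * W x`. -/
noncomputable def f (s : ℝ) (x : mixedSpace K) : ℝ := G s (mixedEmbedding.norm x) * W K x

/-- The scaling factor `N(J)^(-1/n)`, `n = [K : ℚ]`. -/
noncomputable def scal (J : (Ideal (𝓞 K))⁰) : ℝ :=
  (Ideal.absNorm (J : Ideal (𝓞 K)) : ℝ) ^ (-(1 : ℝ) / (Module.finrank ℚ K : ℝ))

end Fermat.Agent.S14.Thaine.ClassZetaB
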