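import Fermat.Agent.S14.Thaine.ClassZetaB.Defs

/-!
# ClassZetaB / GFun: the functions `cut` and `G s T = cut T * T ^ (-s)` (FROZEN statements)
-/

set_option autoImplicit false

namespace Fermat.Agent.S14.Thaine.ClassZetaB

open NumberField NumberField.InfinitePlace NumberField.mixedEmbedding NumberField.Units
  NumberField.Units.dirichletUnitTheorem
open scoped nonZeroDivisors Classical

theorem cut_nonneg (T : ℝ) : 0 ≤ cut T := by
  unfold cut
  exact le_max_left _ _

theorem cut_le_one (T : ℝ) : cut T ≤ 1 := by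
  unfold cut
  exact max_le zero_le_one (min_le_left _ _)

theorem cut_eq_one {T : ℝ} (h : 1 ≤ T) : cut T = 1 := by
  unfold cut
  rw [min_eq_left (by linarith), max_eq_right zero_le_one]

theorem cut_eq_zero {T : ℝ} (h : T ≤ 1 / 2) : cut T = 0 := by
  unfold cut
  rw [min_eq_right (by linarith), max_eq_left (by linarith)]

theorem continuous_cut : Continuous cut := by
  unfold cut
  exact continuous_const.max (continuous_const.min (by fun_prop))

theorem G_nonneg (s : ℝ) {T : ℝ} (hT : 0 ≤ T) : 0 ≤ G s T := by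
  unfold G
  exact mul_nonneg (cut_nonneg T) (Real.rpow_nonneg hT _)

theorem G_eq_rpow (s : ℝ) {T : ℝ} (hT : 1 ≤ T) : G s T = T ^ (-s) := by
  unfold G
  rw [cut_eq_one hT, one_mul]

theorem G_eq_zero (s : ℝ) {T : ℝ} (hT : T ≤ 1 / 2) : G s T = 0 := by
  unfold G
  rw [cut_eq_zero hT, zero_mul]

theorem G_le_rpow (s : ℝ) {T : ℝ} (hT : 0 < T) : G s T ≤ T ^ (-s) := by
  unfold G
  exact mul_le_of_le_one_left (Real.rpow_nonneg hT.le _) (cut_le_one T)

/-- For `1 ≤ s ≤ 2` and `1/6 ≤ T`: `T ^ (-s) ≤ 6 / T`. -/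
private theorem rpow_neg_le_six_div {s T : ℝ} (hs1 : 1 ≤ s) (hs2 : s ≤ 2) (hT : 1 / 6 ≤ T) :
    T ^ (-s) ≤ 6 / T := by
  have hT0 : 0 < T := by linarith
  rcases le_total 1 T with h1 | h1
  · calc T ^ (-s) ≤ T ^ (-1 : ℝ) := Real.rpow_le_rpow_of_exponent_le h1 (by linarith)
      _ = 1 / T := by rw [Real.rpow_neg_one, one_div]
      _ ≤ 6 / T := by gcongr; norm_num
  · calc T ^ (-s) ≤ T ^ (-2 : ℝ) :=
          Real.rpow_le_rpow_of_exponent_ge hT0 h1 (by linarith)
      _ = 1 / T * (1 / T) := by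
          rw [Real.rpow_neg hT0.le, Real.rpow_two]
          field_simp
      _ ≤ 6 * (1 / T) := by
          gcongr
          rw [div_le_iff₀ hT0]
          linarith
      _ = 6 / T := by ring

theorem G_le_two_div {s T : ℝ} (hs1 : 1 ≤ s) (hs2 : s ≤ 2) (hT : 0 < T) : G s T ≤ 2 / T := by
  rcases le_total T (1 / 2) with h | h
  · rw [G_eq_zero s h]
    positivity
  rcases le_total 1 T with h1 | h1
  · calc G s T ≤ T ^ (-s) := G_le_rpow s hT
      _ ≤ T ^ (-1 : ℝ) := Real.rpow_le_rpow_of_exponent_le h1 (by linarith)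
      _ = 1 / T := by rw [Real.rpow_neg_one, one_div]
      _ ≤ 2 / T := by gcongr; norm_num
  · have hcut : cut T ≤ T := by
      unfold cut
      exact max_le hT.le ((min_le_right _ _).trans (by linarith))
    have hpow : T ^ (-s) ≤ 1 / T * (1 / T) := by
      calc T ^ (-s) ≤ T ^ (-2 : ℝ) :=
            Real.rpow_le_rpow_of_exponent_ge hT h1 (by linarith)
        _ = 1 / T * (1 / T) := by
            rw [Real.rpow_neg hT.le, Real.rpow_two]
            field_simp
    unfold G
    calc cut T * T ^ (-s) ≤ T * (1 / T * (1 / T)) :=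
          mul_le_mul hcut hpow (Real.rpow_nonneg hT.le _) hT.le
      _ = 1 / T := by field_simp
      _ ≤ 2 / T := by gcongr; norm_num

theorem G_le_four {s : ℝ} (hs1 : 1 ≤ s) (hs2 : s ≤ 2) (T : ℝ) : G s T ≤ 4 := by
  rcases le_total T (1 / 2) with h | h
  · rw [G_eq_zero s h]
    norm_num
  · have hT : 0 < T := by linarith
    refine (G_le_two_div hs1 hs2 hT).trans ?_
    rw [div_le_iff₀ hT]
    linarith

theorem measurable_G (s : ℝ) : Measurable (G s) := by
  unfold G
  exact continuous_cut.measurable.mul (measurable_id.pow_const _)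

private theorem cut_lip (a b : ℝ) : |cut a - cut b| ≤ 2 * |a - b| := by
  unfold cut
  calc |max 0 (min 1 (2 * a - 1)) - max 0 (min 1 (2 * b - 1))|
      = |max (min 1 (2 * a - 1)) 0 - max (min 1 (2 * b - 1)) 0| := by
        rw [max_comm 0, max_comm 0]
    _ ≤ |min 1 (2 * a - 1) - min 1 (2 * b - 1)| := abs_max_sub_max_le_abs _ _ _
    _ ≤ max |(1 : ℝ) - 1| |(2 * a - 1) - (2 * b - 1)| := abs_min_sub_min_le_max _ _ _ _
    _ = 2 * |a - b| := by
        rw [sub_self, abs_zero, max_eq_right (abs_nonneg _),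
          show (2 * a - 1) - (2 * b - 1) = 2 * (a - b) by ring, abs_mul]
        norm_num

private theorem abs_exp_sub_one_le_four {v : ℝ} (hv : |v| ≤ 2) : |Real.exp v - 1| ≤ 4 * |v| := by
  have h2 : |v / 2| ≤ 1 := by
    rw [abs_div]
    norm_num
    linarith
  have h1 := Real.abs_exp_sub_one_le h2
  have hfac : Real.exp v - 1 = (Real.exp (v / 2) - 1) * (Real.exp (v / 2) + 1) := by
    have : Real.exp v = Real.exp (v / 2) * Real.exp (v / 2) := by
      rw [← Real.exp_add]
      congr 1
      ring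
    rw [this]
    ring
  have h3 : Real.exp (v / 2) ≤ 3 := by
    calc Real.exp (v / 2) ≤ Real.exp 1 := Real.exp_le_exp.mpr ((le_abs_self _).trans h2)
      _ ≤ 3 := Real.exp_one_lt_three.le
  have h4 : 0 < Real.exp (v / 2) := Real.exp_pos _
  rw [hfac, abs_mul, abs_of_pos (by linarith : (0 : ℝ) < Real.exp (v / 2) + 1)]
  have h5 : |v / 2| = |v| / 2 := by
    rw [abs_div]
    norm_num
  rw [h5] at h1
  calc |Real.exp (v / 2) - 1| * (Real.exp (v / 2) + 1) ≤ (2 * (|v| / 2)) * 4 := by
        apply mul_le_mul h1 (by linarith) (by linarith) (by positivity)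
    _ = 4 * |v| := by ring

/-- Multiplicative Lipschitz estimate: if `|log T - log T'| ≤ δ ≤ 1` then
`|G s T - G s T'| ≤ C δ / T`, uniformly in `s ∈ [1,2]`. -/
theorem G_sub_le : ∃ C : ℝ, 0 ≤ C ∧ ∀ s T T' δ : ℝ, 1 ≤ s → s ≤ 2 → 0 < T → 0 < T' → δ ≤ 1 →
    |Real.log T - Real.log T'| ≤ δ → |G s T - G s T'| ≤ C * δ / T := by
  refine ⟨120, by norm_num, ?_⟩
  intro s T T' δ hs1 hs2 hT hT' hδ1 hlog
  have hδ0 : 0 ≤ δ := (abs_nonneg _).trans hlog
  set u : ℝ := Real.log T' - Real.log T with hu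
  have hu_abs : |u| ≤ δ := by
    rw [hu, abs_sub_comm]
    exact hlog
  have hu1 : |u| ≤ 1 := hu_abs.trans hδ1
  have hT'eq : T' = T * Real.exp u := by
    rw [hu, Real.exp_sub, Real.exp_log hT, Real.exp_log hT']
    field_simp
  have he3 : Real.exp 1 < 3 := Real.exp_one_lt_three
  have hexp_le : Real.exp u ≤ 3 :=
    (Real.exp_le_exp.mpr ((le_abs_self _).trans hu1)).trans he3.le
  have hexp_ge : 1 / 3 ≤ Real.exp u := by
    have h1 : Real.exp (-1) ≤ Real.exp u :=
      Real.exp_le_exp.mpr (by linarith [neg_abs_le u])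
    have h2 : (1 : ℝ) / 3 ≤ Real.exp (-1) := by
      rw [Real.exp_neg, one_div]
      exact inv_anti₀ (Real.exp_pos 1) he3.le
    exact h2.trans h1
  rcases le_total T (1 / 6) with hsmall | hbig
  · -- both vanish
    have hT'small : T' ≤ 1 / 2 := by
      rw [hT'eq]
      calc T * Real.exp u ≤ (1 / 6) * 3 := mul_le_mul hsmall hexp_le (Real.exp_pos _).le (by norm_num)
        _ = 1 / 2 := by norm_num
    rw [G_eq_zero s (hsmall.trans (by norm_num)), G_eq_zero s hT'small, sub_self, abs_zero]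
    positivity
  · have hpow : T ^ (-s) ≤ 6 / T := rpow_neg_le_six_div hs1 hs2 hbig
    have hpow0 : 0 ≤ T ^ (-s) := Real.rpow_nonneg hT.le _
    -- first term
    have hfirst : |cut T - cut T'| ≤ 12 * δ := by
      rcases le_total 3 T with h3 | h3
      · have hT'1 : 1 ≤ T' := by
          rw [hT'eq]
          calc (1 : ℝ) = 3 * (1 / 3) := by norm_num
            _ ≤ T * Real.exp u := mul_le_mul h3 hexp_ge (by norm_num) hT.le
        rw [cut_eq_one (by linarith : (1 : ℝ) ≤ T), cut_eq_one hT'1, sub_self, abs_zero]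
        positivity
      · calc |cut T - cut T'| ≤ 2 * |T - T'| := cut_lip T T'
          _ = 2 * (T * |Real.exp u - 1|) := by
              rw [hT'eq, show T - T * Real.exp u = T * (1 - Real.exp u) by ring, abs_mul,
                abs_of_pos hT, abs_sub_comm]
          _ ≤ 2 * (3 * (2 * δ)) := by
              have h := Real.abs_exp_sub_one_le hu1
              have h' : |Real.exp u - 1| ≤ 2 * δ := h.trans (by linarith)
              have : T * |Real.exp u - 1| ≤ 3 * (2 * δ) :=
                mul_le_mul h3 h' (abs_nonneg _) (by norm_num)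
              linarith
          _ = 12 * δ := by ring
    -- second term
    have hT'pow : T' ^ (-s) = T ^ (-s) * Real.exp (-s * u) := by
      rw [hT'eq, Real.mul_rpow hT.le (Real.exp_pos _).le, ← Real.exp_mul, mul_comm u]
    have hsecond : |T ^ (-s) - T' ^ (-s)| ≤ T ^ (-s) * (8 * δ) := by
      rw [hT'pow, show T ^ (-s) - T ^ (-s) * Real.exp (-s * u)
        = T ^ (-s) * (1 - Real.exp (-s * u)) by ring, abs_mul, abs_of_nonneg hpow0, abs_sub_comm]
      apply mul_le_mul_of_nonneg_left _ hpow0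
      have hsu : |-s * u| ≤ 2 * δ := by
        rw [abs_mul, abs_neg, abs_of_pos (by linarith : (0 : ℝ) < s)]
        exact mul_le_mul hs2 hu_abs (abs_nonneg _) (by norm_num)
      have h := abs_exp_sub_one_le_four (v := -s * u) (hsu.trans (by linarith))
      linarith
    have hcut'0 : 0 ≤ cut T' := cut_nonneg T'
    have hcut'1 : cut T' ≤ 1 := cut_le_one T'
    unfold G
    calc |cut T * T ^ (-s) - cut T' * T' ^ (-s)|
        = |(cut T - cut T') * T ^ (-s) + cut T' * (T ^ (-s) - T' ^ (-s))| := by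
          congr 1
          ring
      _ ≤ |cut T - cut T'| * T ^ (-s) + cut T' * |T ^ (-s) - T' ^ (-s)| := by
          refine (abs_add_le _ _).trans ?_
          rw [abs_mul, abs_mul, abs_of_nonneg hpow0, abs_of_nonneg hcut'0]
      _ ≤ 12 * δ * T ^ (-s) + 1 * (T ^ (-s) * (8 * δ)) := by
          gcongr
      _ = 20 * δ * T ^ (-s) := by ring
      _ ≤ 20 * δ * (6 / T) := by gcongr
      _ = 120 * δ / T := by ring

end Fermat.Agent.S14.Thaine.ClassZetaB
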