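import Fermat.Agent.S14.Thaine.ClassZetaB.Defs

/-!
# ClassZetaB / LogLip: Lipschitz estimates for `log norm` and `logMap` away from the coordinate
hyperplanes (FROZEN statements)
-/

set_option autoImplicit false

namespace Fermat.Agent.S14.Thaine.ClassZetaB

open NumberField NumberField.InfinitePlace NumberField.mixedEmbedding NumberField.Units
  NumberField.Units.dirichletUnitTheorem
open scoped nonZeroDivisors Classical

variable (K : Type*) [Field K] [NumberField K]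

theorem abs_normAtPlace_sub_le (w : InfinitePlace K) (x y : mixedSpace K) :
    |normAtPlace w x - normAtPlace w y| ≤ ‖x - y‖ := by
  rcases isReal_or_isComplex w with hw | hw
  · rw [normAtPlace_apply_of_isReal hw, normAtPlace_apply_of_isReal hw]
    calc |‖x.1 ⟨w, hw⟩‖ - ‖y.1 ⟨w, hw⟩‖| ≤ ‖x.1 ⟨w, hw⟩ - y.1 ⟨w, hw⟩‖ :=
          abs_norm_sub_norm_le _ _
      _ = ‖(x - y).1 ⟨w, hw⟩‖ := rfl
      _ ≤ ‖(x - y).1‖ := norm_le_pi_norm (x - y).1 ⟨w, hw⟩
      _ ≤ ‖x - y‖ := norm_fst_le (x - y)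
  · rw [normAtPlace_apply_of_isComplex hw, normAtPlace_apply_of_isComplex hw]
    calc |‖x.2 ⟨w, hw⟩‖ - ‖y.2 ⟨w, hw⟩‖| ≤ ‖x.2 ⟨w, hw⟩ - y.2 ⟨w, hw⟩‖ :=
          abs_norm_sub_norm_le _ _
      _ = ‖(x - y).2 ⟨w, hw⟩‖ := rfl
      _ ≤ ‖(x - y).2‖ := norm_le_pi_norm (x - y).2 ⟨w, hw⟩
      _ ≤ ‖x - y‖ := norm_snd_le (x - y)

private theorem loglip_log_sub_le {μ a b : ℝ} (hμ : 0 < μ) (ha : μ ≤ a) (hb : μ ≤ b) :
    Real.log a - Real.log b ≤ |a - b| / μ := by
  have ha0 : 0 < a := lt_of_lt_of_le hμ ha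
  have hb0 : 0 < b := lt_of_lt_of_le hμ hb
  rw [← Real.log_div ha0.ne' hb0.ne']
  have h1 : Real.log (a / b) ≤ a / b - 1 := Real.log_le_sub_one_of_pos (div_pos ha0 hb0)
  have h2 : a / b - 1 = (a - b) / b := by field_simp
  rcases le_or_gt a b with hab | hab
  · have : (a - b) / b ≤ 0 := div_nonpos_of_nonpos_of_nonneg (by linarith) hb0.le
    have h3 : 0 ≤ |a - b| / μ := div_nonneg (abs_nonneg _) hμ.le
    linarith
  · have h3 : (a - b) / b ≤ (a - b) / μ :=
      div_le_div_of_nonneg_left (by linarith) hμ hb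
    have h4 : (a - b) / μ ≤ |a - b| / μ :=
      div_le_div_of_nonneg_right (le_abs_self _) hμ.le
    linarith

private theorem loglip_abs_log_sub_le {μ a b : ℝ} (hμ : 0 < μ) (ha : μ ≤ a) (hb : μ ≤ b) :
    |Real.log a - Real.log b| ≤ |a - b| / μ := by
  rw [abs_le]
  constructor
  · have := loglip_log_sub_le hμ hb ha
    rw [abs_sub_comm] at this
    linarith
  · exact loglip_log_sub_le hμ ha hb

theorem abs_log_normAtPlace_sub_le {μ : ℝ} (hμ : 0 < μ) {x y : mixedSpace K} (w : InfinitePlace K)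
    (hx : μ ≤ normAtPlace w x) (hy : μ ≤ normAtPlace w y) :
    |Real.log (normAtPlace w x) - Real.log (normAtPlace w y)| ≤ ‖x - y‖ / μ :=
  (loglip_abs_log_sub_le hμ hx hy).trans
    (div_le_div_of_nonneg_right (abs_normAtPlace_sub_le K w x y) hμ.le)

private theorem loglip_log_norm {μ : ℝ} (hμ : 0 < μ) {x : mixedSpace K}
    (hx : ∀ w : InfinitePlace K, μ ≤ normAtPlace w x) :
    Real.log (mixedEmbedding.norm x) =
      ∑ w : InfinitePlace K, (mult w : ℝ) * Real.log (normAtPlace w x) := by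
  rw [mixedEmbedding.norm_apply, Real.log_prod]
  · exact Finset.sum_congr rfl fun w _ => Real.log_pow _ _
  · intro w _
    exact pow_ne_zero _ (lt_of_lt_of_le hμ (hx w)).ne'

theorem abs_log_norm_sub_le {μ : ℝ} (hμ : 0 < μ) {x y : mixedSpace K}
    (hx : ∀ w : InfinitePlace K, μ ≤ normAtPlace w x)
    (hy : ∀ w : InfinitePlace K, μ ≤ normAtPlace w y) :
    |Real.log (mixedEmbedding.norm x) - Real.log (mixedEmbedding.norm y)| ≤
      (Module.finrank ℚ K : ℝ) * ‖x - y‖ / μ := by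
  rw [loglip_log_norm K hμ hx, loglip_log_norm K hμ hy, ← Finset.sum_sub_distrib]
  calc |∑ w : InfinitePlace K, ((mult w : ℝ) * Real.log (normAtPlace w x) -
          (mult w : ℝ) * Real.log (normAtPlace w y))|
      ≤ ∑ w : InfinitePlace K, |(mult w : ℝ) * Real.log (normAtPlace w x) -
          (mult w : ℝ) * Real.log (normAtPlace w y)| := Finset.abs_sum_le_sum_abs _ _
    _ ≤ ∑ w : InfinitePlace K, (mult w : ℝ) * (‖x - y‖ / μ) := by
        refine Finset.sum_le_sum fun w _ => ?_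
        rw [← mul_sub, abs_mul, abs_of_nonneg (Nat.cast_nonneg _)]
        exact mul_le_mul_of_nonneg_left (abs_log_normAtPlace_sub_le K hμ w (hx w) (hy w))
          (Nat.cast_nonneg _)
    _ = (Module.finrank ℚ K : ℝ) * ‖x - y‖ / μ := by
        rw [← Finset.sum_mul, ← Nat.cast_sum, sum_mult_eq, mul_div_assoc]

theorem norm_logMap_sub_le {μ : ℝ} (hμ : 0 < μ) {x y : mixedSpace K}
    (hx : ∀ w : InfinitePlace K, μ ≤ normAtPlace w x)
    (hy : ∀ w : InfinitePlace K, μ ≤ normAtPlace w y) :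
    ‖logMap x - logMap y‖ ≤ 4 * ‖x - y‖ / μ := by
  have hD : 0 ≤ ‖x - y‖ / μ := div_nonneg (norm_nonneg _) hμ.le
  have hn : (0 : ℝ) < (Module.finrank ℚ K : ℝ) := Nat.cast_pos.mpr Module.finrank_pos
  refine (pi_norm_le_iff_of_nonneg (by linarith [mul_div_assoc (4 : ℝ) ‖x - y‖ μ])).mpr
    fun w => ?_
  rw [Pi.sub_apply, logMap_apply, logMap_apply, ← mul_sub, Real.norm_eq_abs, abs_mul,
    abs_of_nonneg (Nat.cast_nonneg _)]
  have h1 := abs_log_normAtPlace_sub_le K hμ w.val (hx w.val) (hy w.val)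
  have h2 := abs_log_norm_sub_le K hμ hx hy
  have hm : ((mult w.val : ℕ) : ℝ) ≤ 2 := by
    have : mult w.val ≤ 2 := by unfold mult; split_ifs <;> norm_num
    exact_mod_cast this
  have h3 : |Real.log (mixedEmbedding.norm x) - Real.log (mixedEmbedding.norm y)| *
      (Module.finrank ℚ K : ℝ)⁻¹ ≤ ‖x - y‖ / μ := by
    calc _ ≤ ((Module.finrank ℚ K : ℝ) * ‖x - y‖ / μ) * (Module.finrank ℚ K : ℝ)⁻¹ :=
          mul_le_mul_of_nonneg_right h2 (inv_nonneg.mpr hn.le)
      _ = ‖x - y‖ / μ := by field_simp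
  have h4 : |Real.log (normAtPlace w.val x) -
        Real.log (mixedEmbedding.norm x) * (Module.finrank ℚ K : ℝ)⁻¹ -
      (Real.log (normAtPlace w.val y) -
        Real.log (mixedEmbedding.norm y) * (Module.finrank ℚ K : ℝ)⁻¹)| ≤
      2 * (‖x - y‖ / μ) := by
    have e : Real.log (normAtPlace w.val x) -
        Real.log (mixedEmbedding.norm x) * (Module.finrank ℚ K : ℝ)⁻¹ -
      (Real.log (normAtPlace w.val y) -
        Real.log (mixedEmbedding.norm y) * (Module.finrank ℚ K : ℝ)⁻¹) =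
      (Real.log (normAtPlace w.val x) - Real.log (normAtPlace w.val y)) -
      (Real.log (mixedEmbedding.norm x) - Real.log (mixedEmbedding.norm y)) *
        (Module.finrank ℚ K : ℝ)⁻¹ := by ring
    rw [e]
    refine (abs_sub _ _).trans ?_
    rw [abs_mul, abs_of_nonneg (inv_nonneg.mpr hn.le)]
    linarith
  calc ((mult w.val : ℕ) : ℝ) * _ ≤ 2 * (2 * (‖x - y‖ / μ)) :=
        mul_le_mul hm h4 (abs_nonneg _) (by norm_num)
    _ = 4 * ‖x - y‖ / μ := by ring

end Fermat.Agent.S14.Thaine.ClassZetaB
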