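import Fermat.Agent.S14.Thaine.ClassZetaB.GFun
import Fermat.Agent.S14.Thaine.ClassZetaB.Cone
import Fermat.Agent.S14.Thaine.ClassZetaB.LogLip

/-!
# ClassZetaB / Pair: local Lipschitz estimate for the test function `f` on the support of `W`,
uniformly in `s ∈ [1,2]` (FROZEN statements)
-/

set_option autoImplicit false

namespace Fermat.Agent.S14.Thaine.ClassZetaB

open NumberField NumberField.InfinitePlace NumberField.mixedEmbedding NumberField.Units
  NumberField.Units.dirichletUnitTheorem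
open scoped nonZeroDivisors Classical

variable (K : Type*) [Field K] [NumberField K]

theorem f_nonneg (s : ℝ) (x : mixedSpace K) : 0 ≤ f K s x := by
  unfold f
  exact mul_nonneg (G_nonneg s (mixedEmbedding.norm_nonneg x)) (W_nonneg K x)

theorem f_le_four {s : ℝ} (hs1 : 1 ≤ s) (hs2 : s ≤ 2) (x : mixedSpace K) : f K s x ≤ 4 := by
  unfold f
  have h1 : G s (mixedEmbedding.norm x) ≤ 4 := G_le_four hs1 hs2 _
  have h2 : 0 ≤ G s (mixedEmbedding.norm x) := G_nonneg s (mixedEmbedding.norm_nonneg x)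
  have h3 : 0 ≤ W K x := W_nonneg K x
  have h4 : W K x ≤ 1 := W_le_one K x
  calc G s (mixedEmbedding.norm x) * W K x ≤ 4 * 1 := mul_le_mul h1 h4 h3 (by norm_num)
    _ = 4 := by norm_num

/-- If `x` is in the support of `W` and `y` is close to `x` (relative to `‖x‖`), then
`|f s x - f s y| ≤ C ‖x - y‖ / ‖x‖^(n+1)`. -/
theorem f_pair : ∃ C : ℝ, 0 ≤ C ∧ ∃ ε : ℝ, 0 < ε ∧ ε ≤ 1 / 2 ∧ ∀ s : ℝ, 1 ≤ s → s ≤ 2 →
    ∀ x y : mixedSpace K, W K x ≠ 0 → ‖x - y‖ ≤ ε * ‖x‖ →
      |f K s x - f K s y| ≤ C * ‖x - y‖ / ‖x‖ ^ (Module.finrank ℚ K + 1) := by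
  obtain ⟨m, hm0, hm1, hm⟩ := exists_cone_const K
  obtain ⟨Lw, hLw0, hLw⟩ := w0_lipschitz K
  obtain ⟨CG, hCG0, hCG⟩ := G_sub_le
  have hn : 0 < Module.finrank ℚ K := Module.finrank_pos
  generalize hnd : Module.finrank ℚ K = n at hn ⊢
  have hnR : (1 : ℝ) ≤ (n : ℝ) := by exact_mod_cast hn
  have hnpos : (0 : ℝ) < (n : ℝ) := by linarith
  refine ⟨(8 * Lw + CG * n) * (2 / m) ^ (n + 1), by positivity, m / (2 * n), by positivity, ?_, ?_⟩
  · rw [div_le_div_iff₀ (by positivity) (by norm_num)]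
    nlinarith
  intro s hs1 hs2 x y hW hxy
  have hNx : mixedEmbedding.norm x ≠ 0 := norm_ne_zero_of_W_ne_zero K hW
  have hx0 : x ≠ 0 := by
    rintro rfl
    exact hNx (map_zero _)
  have hxpos : 0 < ‖x‖ := norm_pos_iff.mpr hx0
  set d : ℝ := ‖x - y‖ with hd
  have hd0 : 0 ≤ d := norm_nonneg _
  set μ : ℝ := m / 2 * ‖x‖ with hμdef
  have hμ : 0 < μ := by positivity
  -- `n * d ≤ μ`
  have hndμ : (n : ℝ) * d ≤ μ := by
    have h1 : (n : ℝ) * d ≤ n * (m / (2 * n) * ‖x‖) := by gcongr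
    have h2 : (n : ℝ) * (m / (2 * n) * ‖x‖) = μ := by
      rw [hμdef]; field_simp
    linarith
  have hdμ : d ≤ μ := by nlinarith
  have hxw : ∀ w : InfinitePlace K, μ ≤ normAtPlace w x := by
    intro w
    have := hm x hW w
    have h2 : μ ≤ m * ‖x‖ := by rw [hμdef]; nlinarith
    linarith
  have hyw : ∀ w : InfinitePlace K, μ ≤ normAtPlace w y := by
    intro w
    have h1 := hm x hW w
    have h2 := abs_normAtPlace_sub_le K w x y
    have h3 := (abs_le.mp h2).2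
    have h4 : m * ‖x‖ = μ + μ := by rw [hμdef]; ring
    linarith
  have hNxμ : μ ^ n ≤ mixedEmbedding.norm x := by
    have := pow_le_norm K hμ.le hxw
    rwa [hnd] at this
  have hNyμ : μ ^ n ≤ mixedEmbedding.norm y := by
    have := pow_le_norm K hμ.le hyw
    rwa [hnd] at this
  have hμn : 0 < μ ^ n := by positivity
  set Nx : ℝ := mixedEmbedding.norm x with hNxdef
  set Ny : ℝ := mixedEmbedding.norm y with hNydef
  have hNxpos : 0 < Nx := lt_of_lt_of_le hμn hNxμ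
  have hNypos : 0 < Ny := lt_of_lt_of_le hμn hNyμ
  have hδ1 : (n : ℝ) * d / μ ≤ 1 := by
    rw [div_le_one hμ]; exact hndμ
  have hlog : |Real.log Nx - Real.log Ny| ≤ (n : ℝ) * d / μ := by
    have := abs_log_norm_sub_le K hμ hxw hyw
    rwa [hnd] at this
  have hG : |G s Nx - G s Ny| ≤ CG * ((n : ℝ) * d / μ) / Nx :=
    hCG s Nx Ny _ hs1 hs2 hNxpos hNypos hδ1 hlog
  have hWx : W K x = w0 K (logMap x) := W_eq_of_norm_ne_zero K hNx
  have hWy : W K y = w0 K (logMap y) := W_eq_of_norm_ne_zero K hNypos.ne'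
  have hWxy : |W K x - W K y| ≤ Lw * (4 * d / μ) := by
    rw [hWx, hWy]
    refine (hLw _ _).trans ?_
    exact mul_le_mul_of_nonneg_left (norm_logMap_sub_le K hμ hxw hyw) hLw0
  have hGx : G s Nx ≤ 2 / Nx := G_le_two_div hs1 hs2 hNxpos
  have hGx0 : 0 ≤ G s Nx := G_nonneg s hNxpos.le
  have hWy0 : 0 ≤ W K y := W_nonneg K y
  have hWy1 : W K y ≤ 1 := W_le_one K y
  -- main estimate
  have hmain : |f K s x - f K s y| ≤ (8 * Lw + CG * n) * d / (μ * Nx) := by
    have e1 : f K s x - f K s y = G s Nx * (W K x - W K y) + (G s Nx - G s Ny) * W K y := by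
      unfold f; ring
    have e2 : |f K s x - f K s y| ≤ G s Nx * |W K x - W K y| + |G s Nx - G s Ny| * W K y := by
      rw [e1]
      refine (abs_add_le _ _).trans ?_
      rw [abs_mul, abs_mul, abs_of_nonneg hGx0, abs_of_nonneg hWy0]
    have e3 : G s Nx * |W K x - W K y| ≤ 2 / Nx * (Lw * (4 * d / μ)) :=
      mul_le_mul hGx hWxy (abs_nonneg _) (by positivity)
    have e4 : |G s Nx - G s Ny| * W K y ≤ CG * ((n : ℝ) * d / μ) / Nx * 1 :=
      mul_le_mul hG hWy1 hWy0 (by positivity)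
    have e5 : 2 / Nx * (Lw * (4 * d / μ)) + CG * ((n : ℝ) * d / μ) / Nx * 1
        = (8 * Lw + CG * n) * d / (μ * Nx) := by
      field_simp
      ring
    linarith
  have hden : μ ^ (n + 1) ≤ μ * Nx := by
    rw [pow_succ']
    exact mul_le_mul_of_nonneg_left hNxμ hμ.le
  have hnum : 0 ≤ (8 * Lw + CG * n) * d := by positivity
  have h6 : (8 * Lw + CG * n) * d / (μ * Nx) ≤ (8 * Lw + CG * n) * d / μ ^ (n + 1) :=
    div_le_div_of_nonneg_left hnum (by positivity) hden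
  have h7 : (8 * Lw + CG * n) * d / μ ^ (n + 1)
      = (8 * Lw + CG * n) * (2 / m) ^ (n + 1) * d / ‖x‖ ^ (n + 1) := by
    rw [hμdef, mul_pow, div_pow, div_pow]
    field_simp
  linarith

end Fermat.Agent.S14.Thaine.ClassZetaB
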