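import Fermat.Agent.S14.Thaine.ClassZetaB.Pair

/-!
# ClassZetaB / Regularity: the test function `f` changes by `O((1+‖x‖)^(-n-1))` under bounded
translations, uniformly in `s ∈ [1,2]` (FROZEN statement)
-/

set_option autoImplicit false

namespace Fermat.Agent.S14.Thaine.ClassZetaB

open NumberField NumberField.InfinitePlace NumberField.mixedEmbedding NumberField.Units
  NumberField.Units.dirichletUnitTheorem
open scoped nonZeroDivisors Classical

variable (K : Type*) [Field K] [NumberField K]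

private lemma reg_aux {δ M b k P : ℝ} {m : ℕ} (hb : 0 < b) (hM : 0 ≤ M)
    (hP0 : 0 ≤ P) (h1 : δ ≤ M / b ^ m) (h2 : P ≤ (k * b) ^ m) : δ * P ≤ M * k ^ m := by
  have hbm : 0 < b ^ m := pow_pos hb m
  calc δ * P ≤ M / b ^ m * (k * b) ^ m :=
        mul_le_mul h1 h2 hP0 (by positivity)
    _ = M * k ^ m := by rw [mul_pow]; field_simp

/-- Uniform regularity of `f` under bounded translations. -/
theorem f_regular (D : ℝ) (hD : 0 ≤ D) : ∃ L : ℝ, 0 ≤ L ∧ ∀ s : ℝ, 1 ≤ s → s ≤ 2 →
    ∀ x τ : mixedSpace K, ‖τ‖ ≤ D →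
      |f K s (x + τ) - f K s x| ≤ L * (1 + ‖x‖) ^ (-((Module.finrank ℚ K : ℝ) + 1)) := by
  obtain ⟨C, hC, ε, hε, hε2, hp⟩ := f_pair K
  generalize Module.finrank ℚ K = n at hp ⊢
  set R : ℝ := 2 * D / ε + 1 with hR
  have hR1 : 1 ≤ R := by
    have : 0 ≤ 2 * D / ε := by positivity
    linarith
  refine ⟨4 * (1 + R) ^ (n + 1) + C * D * 4 ^ (n + 1), by positivity, ?_⟩
  intro s hs1 hs2 x τ hτ
  have ha : 0 ≤ ‖x‖ := norm_nonneg x
  have hP : 0 < (1 + ‖x‖) ^ (n + 1) := by positivity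
  have hconv : (1 + ‖x‖) ^ (-((n : ℝ) + 1)) = ((1 + ‖x‖) ^ (n + 1))⁻¹ := by
    rw [Real.rpow_neg (by positivity)]
    congr 1
    exact_mod_cast Real.rpow_natCast (1 + ‖x‖) (n + 1)
  rw [hconv, ← div_eq_mul_inv, le_div_iff₀ hP]
  have h4 : C * D * 2 ^ (n + 1) ≤ C * D * 4 ^ (n + 1) := by
    gcongr
    norm_num
  have hL1 : 0 ≤ 4 * (1 + R) ^ (n + 1) := by positivity
  have hL2 : 0 ≤ C * D * 4 ^ (n + 1) := by positivity
  have hCD : 0 ≤ C * D := mul_nonneg hC hD
  by_cases hxR : ‖x‖ ≤ R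
  · have h1 : |f K s (x + τ) - f K s x| ≤ 4 := by
      rw [abs_le]
      constructor <;>
        linarith [f_nonneg K s x, f_nonneg K s (x + τ), f_le_four K hs1 hs2 x,
          f_le_four K hs1 hs2 (x + τ)]
    have h2 : (1 + ‖x‖) ^ (n + 1) ≤ (1 + R) ^ (n + 1) := by gcongr
    calc |f K s (x + τ) - f K s x| * (1 + ‖x‖) ^ (n + 1)
        ≤ 4 * (1 + R) ^ (n + 1) := mul_le_mul h1 h2 hP.le (by norm_num)
      _ ≤ _ := by linarith
  · rw [not_le] at hxR
    have ha1 : 1 < ‖x‖ := by linarith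
    have hDε : D ≤ ε * ‖x‖ / 2 := by
      have h : 2 * D / ε < ‖x‖ := by linarith
      rw [div_lt_iff₀ hε] at h
      linarith
    have hτx : ‖x‖ - D ≤ ‖x + τ‖ := by
      have h := norm_sub_norm_le x (-τ)
      rw [norm_neg, sub_neg_eq_add] at h
      linarith
    have hD4 : D ≤ ‖x‖ / 4 := by nlinarith
    have hhalf : ‖x‖ / 2 ≤ ‖x + τ‖ := by linarith
    by_cases hWx : W K x = 0
    · by_cases hWy : W K (x + τ) = 0
      · have e1 : f K s x = 0 := by unfold f; rw [hWx, mul_zero]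
        have e2 : f K s (x + τ) = 0 := by unfold f; rw [hWy, mul_zero]
        rw [e1, e2, sub_zero, abs_zero, zero_mul]
        positivity
      · have h := hp s hs1 hs2 (x + τ) x hWy (by
          rw [add_sub_cancel_left]
          have : ε * (‖x‖ / 2) ≤ ε * ‖x + τ‖ := by gcongr
          linarith)
        rw [add_sub_cancel_left] at h
        have hb : 0 < ‖x‖ / 2 := by linarith
        have h1 : |f K s (x + τ) - f K s x| ≤ C * D / (‖x‖ / 2) ^ (n + 1) := by
          refine h.trans ?_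
          gcongr
        have h2 := reg_aux (k := 4) hb hCD hP.le h1
          (by gcongr; linarith)
        linarith
    · have h := hp s hs1 hs2 x (x + τ) hWx (by
        rw [sub_add_cancel_left, norm_neg]
        linarith)
      rw [sub_add_cancel_left, norm_neg, abs_sub_comm] at h
      have hb : 0 < ‖x‖ := by linarith
      have h1 : |f K s (x + τ) - f K s x| ≤ C * D / ‖x‖ ^ (n + 1) := by
        refine h.trans ?_
        gcongr
      have h2 := reg_aux (k := 2) hb hCD hP.le h1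
        (by gcongr; linarith)
      linarith

end Fermat.Agent.S14.Thaine.ClassZetaB
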