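import Fermat.Agent.S14.Thaine.ClassZetaB.Defs

/-!
# ClassZetaB / Tent: the tent function `tent t = max 0 (1 - |t|)` (FROZEN statements)
-/

set_option autoImplicit false

namespace Fermat.Agent.S14.Thaine.ClassZetaB

open NumberField NumberField.InfinitePlace NumberField.mixedEmbedding NumberField.Units
  NumberField.Units.dirichletUnitTheorem
open scoped nonZeroDivisors Classical

theorem tent_nonneg (t : ℝ) : 0 ≤ tent t := by
  unfold tent
  exact le_max_left _ _

theorem tent_le_one (t : ℝ) : tent t ≤ 1 := by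
  unfold tent
  exact max_le zero_le_one (by linarith [abs_nonneg t])

theorem tent_lipschitz (a b : ℝ) : |tent a - tent b| ≤ |a - b| := by
  unfold tent
  rw [max_comm 0 (1 - |a|), max_comm 0 (1 - |b|)]
  refine (abs_max_sub_max_le_abs _ _ _).trans ?_
  have h : (1 - |a|) - (1 - |b|) = |b| - |a| := by ring
  rw [h, abs_sub_comm a b]
  exact abs_abs_sub_abs_le_abs_sub b a

theorem abs_lt_one_of_tent_ne_zero {t : ℝ} (h : tent t ≠ 0) : |t| < 1 := by
  by_contra hlt
  apply h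
  unfold tent
  exact max_eq_left (by linarith [not_lt.mp hlt])

private theorem tent_aux_zero (t : ℝ) (k : ℤ)
    (hk : k ∉ ({-⌊t⌋, -⌊t⌋ - 1} : Finset ℤ)) : tent (t + k) = 0 := by
  have h1 : k ≠ -⌊t⌋ := fun h => hk (by simp [h])
  have h2 : k ≠ -⌊t⌋ - 1 := fun h => hk (by simp [h])
  have hfl : (⌊t⌋ : ℝ) ≤ t := Int.floor_le t
  have hlt : t < ⌊t⌋ + 1 := Int.lt_floor_add_one t
  unfold tent
  apply max_eq_left
  rcases lt_or_gt_of_ne h1 with h | h
  · have h' : k ≤ -⌊t⌋ - 2 := by omega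
    have h'' : (k : ℝ) ≤ -(⌊t⌋ : ℝ) - 2 := by exact_mod_cast h'
    have : t + k ≤ -1 := by linarith
    have : 1 ≤ |t + k| := by
      rw [abs_of_nonpos (by linarith)]; linarith
    linarith
  · have h' : -⌊t⌋ + 1 ≤ k := by omega
    have h'' : -(⌊t⌋ : ℝ) + 1 ≤ (k : ℝ) := by exact_mod_cast h'
    have : 1 ≤ t + k := by linarith
    have : 1 ≤ |t + k| := by
      rw [abs_of_nonneg (by linarith)]; linarith
    linarith

private theorem tent_aux_sum (t : ℝ) :
    ∑ k ∈ ({-⌊t⌋, -⌊t⌋ - 1} : Finset ℤ), tent (t + k) = 1 := by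
  have hfl : (⌊t⌋ : ℝ) ≤ t := Int.floor_le t
  have hlt : t < ⌊t⌋ + 1 := Int.lt_floor_add_one t
  have hne : (-⌊t⌋ : ℤ) ≠ -⌊t⌋ - 1 := by omega
  rw [Finset.sum_pair hne]
  unfold tent
  push_cast
  have e1 : |t + -(⌊t⌋ : ℝ)| = t - ⌊t⌋ := by
    rw [abs_of_nonneg (by linarith)]; ring
  have e2 : |t + (-(⌊t⌋ : ℝ) - 1)| = ⌊t⌋ + 1 - t := by
    rw [abs_of_nonpos (by linarith)]; ring
  rw [e1, e2, max_eq_right (by linarith), max_eq_right (by linarith)]
  ring

/-- The integer translates of the tent function form a partition of unity. -/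
theorem hasSum_tent (t : ℝ) : HasSum (fun k : ℤ => tent (t + k)) 1 := by
  have h : HasSum (fun k : ℤ => tent (t + k))
      (∑ k ∈ ({-⌊t⌋, -⌊t⌋ - 1} : Finset ℤ), tent (t + k)) :=
    hasSum_sum_of_ne_finset_zero (fun k hk => tent_aux_zero t k hk)
  rwa [tent_aux_sum] at h

/-- Multi-dimensional version. -/
theorem hasSum_prod_tent {ι : Type*} [Fintype ι] (t : ι → ℝ) :
    HasSum (fun k : ι → ℤ => ∏ i, tent (t i + k i)) 1 := by
  have h : HasSum (fun k : ι → ℤ => ∏ i, tent (t i + k i))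
      (∑ k ∈ Fintype.piFinset (fun i => ({-⌊t i⌋, -⌊t i⌋ - 1} : Finset ℤ)),
        ∏ i, tent (t i + k i)) :=
    hasSum_sum_of_ne_finset_zero (fun k hk => by
      rw [Fintype.mem_piFinset] at hk
      obtain ⟨i, hi⟩ := not_forall.mp hk
      exact Finset.prod_eq_zero (Finset.mem_univ i) (tent_aux_zero (t i) (k i) hi))
  have hsum : ∑ k ∈ Fintype.piFinset (fun i => ({-⌊t i⌋, -⌊t i⌋ - 1} : Finset ℤ)),
      ∏ i, tent (t i + k i) = 1 := by
    rw [← Finset.prod_univ_sum (fun i => ({-⌊t i⌋, -⌊t i⌋ - 1} : Finset ℤ))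
      (fun i (j : ℤ) => tent (t i + j))]
    exact Finset.prod_eq_one (fun i _ => tent_aux_sum (t i))
  rwa [hsum] at h

end Fermat.Agent.S14.Thaine.ClassZetaB
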