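import Fermat.Agent.S14.Thaine.ClassZetaB.Tent

/-!
# ClassZetaB / UnitSum: `W` is a partition of unity for the action of the units (FROZEN statement)
-/

set_option autoImplicit false

namespace Fermat.Agent.S14.Thaine.ClassZetaB

open NumberField NumberField.InfinitePlace NumberField.mixedEmbedding NumberField.Units
  NumberField.Units.dirichletUnitTheorem
open scoped nonZeroDivisors Classical

variable (K : Type*) [Field K] [NumberField K]

/-- `∑_{u ∈ (𝓞 K)ˣ} W (u • x) = torsionOrder K` for every `x` of nonzero norm. -/
theorem hasSum_W_units (x : mixedSpace K) (hx : mixedEmbedding.norm x ≠ 0) :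
    HasSum (fun u : (𝓞 K)ˣ => W K (u • x)) (torsionOrder K : ℝ) := by
  sorry

end Fermat.Agent.S14.Thaine.ClassZetaB
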